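/-
T4-C (helper9): the chart-level setup of the three-component core (level `q²`).

The base is a plain `T2Base K F k Fb` (in the application `Fb = 𝒪 ⧸ (q)` is a NON-reduced
`k`-algebra).  `T4Setup d` = the part of `T2.T2Setup` which survives: the coordinate `x`, finiteness
of `B₁` over `A[x]` (`T2Fin`), and exact Riemann–Roch on the generic fibre.  There is no node data
and no smoothness hypothesis on the special fibre.

`Lsing a b := {t | x̄ᵇ t ∈ res B₁ ∧ x̄⁻ᵃ t ∈ res B₂}` is, by flatness (`t2f_flat`), the reduction of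
`Λ⁰(a,b)`, hence of dimension `(a+b) n + c` for `a + b` large.

`T4Twist su` = a twist of the structure sheaf by a Kummer function `y ≡ 1`; **`t4_core`**: if the
reductions of the twisted sections lie in `res B₁`, resp. `res B₂` (trivial gluing data on both
charts), then the twisted sheaf has a global section reducing to `1` (lattice machine of
`Lib/T2/Core/Chart.lean`).
-/
import Fermat.Agent.Lib.T2.Core.Flat
import Fermat.Agent.Lib.T2.Core.Chart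

set_option autoImplicit false
set_option linter.style.haveILetI false

namespace Fermat.Agent.T4

open T1 (tbL tbLbar)
open T2 (T2Base T2Chart T2Fin t2Int t2f_flat t2Int_self t2Int_pow_self t2Int_mul)

variable {K F k Fb : Type*} [Field K] [Field F] [Algebra K F] [Field k] [CommRing Fb] [Algebra k Fb]

/-- the chart-level hypotheses of the three-component core -/
structure T4Setup (d : T2Base K F k Fb) where
  /-- the residue characteristic -/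
  ℓ : ℕ
  hℓ : ℓ.Prime
  hℓA : ((ℓ : ℕ) : K) ∈ d.A.nonunits
  hℓ0 : ((ℓ : ℕ) : K) ≠ 0
  /-- the exponent -/
  m : ℕ
  hm : Nat.Coprime m ℓ
  /-- the coordinate function -/
  x : F
  hx0 : x ≠ 0
  hx : x ∈ d.Ov
  hxi : x⁻¹ ∈ d.Ov
  /-- the pole bound of the generators of `B₁` -/
  e : ℕ
  fin1 : T2Fin d x e
  ex2 : ∀ f : F, f ∈ t2Int (K := K) x⁻¹ → ∃ n : ℕ, x ^ n * f ∈ t2Int (K := K) x
  /-- the degree of `x` -/
  n : ℕ
  /-- `1 - g` -/
  c : ℤ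
  /-- the bound beyond which Riemann–Roch is an equality -/
  a0 : ℕ
  finL0 : ∀ a b : ℕ, FiniteDimensional K ↥(tbLbar (K := K) x a b)
  dim0 : ∀ a b : ℕ, a0 ≤ a + b →
    (Module.finrank K ↥(tbLbar (K := K) x a b) : ℤ) = ((a + b : ℕ) : ℤ) * n + c

namespace T4Setup

variable {d : T2Base K F k Fb} (su : T4Setup d)

/-- `x̄` -/
def xb : Fb := d.res ⟨su.x, su.hx⟩

/-- `x̄⁻¹` -/
def xib : Fb := d.res ⟨su.x⁻¹, su.hxi⟩

theorem xib_mul_xb : su.xib * su.xb = 1 := T2.t2f_res_inv_mul d su.hx0 su.hx su.hxi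

theorem xb_mul_xib : su.xb * su.xib = 1 := T2.t2f_res_mul_inv d su.hx0 su.hx su.hxi

instance (a b : ℕ) : FiniteDimensional K ↥(tbLbar (K := K) su.x a b) := su.finL0 a b

theorem m_pos : 0 < su.m := by
  rcases Nat.eq_zero_or_pos su.m with h0 | h
  · exfalso
    have h1 := su.hm
    rw [h0, Nat.coprime_zero_left] at h1
    exact su.hℓ.one_lt.ne' h1
  · exact h

/-- `S₁ = res B₁` -/
def S1 : Subalgebra k Fb where
  carrier := d.resBall (t2Int su.x)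
  zero_mem' := (d.resBall (t2Int su.x)).zero_mem
  add_mem' := fun h1 h2 => (d.resBall (t2Int su.x)).add_mem h1 h2
  one_mem' := ⟨1, ⟨isIntegral_one, d.Ov.one_mem⟩, d.res_one' _⟩
  mul_mem' := by
    rintro _ _ ⟨f, hf, rfl⟩ ⟨g, hg, rfl⟩
    exact ⟨f * g, ⟨t2Int_mul hf.1 hg.1, d.Ov.mul_mem hf.2 hg.2⟩, d.res_mul' hf.2 hg.2⟩
  algebraMap_mem' := by
    intro c
    have h1 : (1 : Fb) ∈ d.resBall (t2Int su.x) := ⟨1, ⟨isIntegral_one, d.Ov.one_mem⟩, d.res_one' _⟩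
    have := (d.resBall (t2Int su.x)).smul_mem c h1
    rwa [Algebra.smul_def, mul_one] at this

/-- `S₂ = res B₂` -/
def S2 : Subalgebra k Fb where
  carrier := d.resBall (t2Int su.x⁻¹)
  zero_mem' := (d.resBall (t2Int su.x⁻¹)).zero_mem
  add_mem' := fun h1 h2 => (d.resBall (t2Int su.x⁻¹)).add_mem h1 h2
  one_mem' := ⟨1, ⟨isIntegral_one, d.Ov.one_mem⟩, d.res_one' _⟩
  mul_mem' := by
    rintro _ _ ⟨f, hf, rfl⟩ ⟨g, hg, rfl⟩
    exact ⟨f * g, ⟨t2Int_mul hf.1 hg.1, d.Ov.mul_mem hf.2 hg.2⟩, d.res_mul' hf.2 hg.2⟩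
  algebraMap_mem' := by
    intro c
    have h1 : (1 : Fb) ∈ d.resBall (t2Int su.x⁻¹) :=
      ⟨1, ⟨isIntegral_one, d.Ov.one_mem⟩, d.res_one' _⟩
    have := (d.resBall (t2Int su.x⁻¹)).smul_mem c h1
    rwa [Algebra.smul_def, mul_one] at this

theorem mem_S1 {t : Fb} : t ∈ su.S1 ↔ t ∈ d.resBall (t2Int su.x) := Iff.rfl

theorem mem_S2 {t : Fb} : t ∈ su.S2 ↔ t ∈ d.resBall (t2Int su.x⁻¹) := Iff.rfl

theorem S1_toSubmodule : Subalgebra.toSubmodule su.S1 = d.resBall (t2Int su.x) := rfl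

theorem S2_toSubmodule : Subalgebra.toSubmodule su.S2 = d.resBall (t2Int su.x⁻¹) := rfl

theorem xb_mem_S1 : su.xb ∈ su.S1 := ⟨su.x, ⟨t2Int_self su.x, su.hx⟩, rfl⟩

theorem xib_mem_S2 : su.xib ∈ su.S2 := ⟨su.x⁻¹, ⟨t2Int_self su.x⁻¹, su.hxi⟩, rfl⟩

/-- functions on the special fibre: `x̄ᵇ t ∈ res B₁`, `x̄⁻ᵃ t ∈ res B₂` -/
def Lsing (a b : ℕ) : Submodule k Fb where
  carrier := {t | su.xb ^ b * t ∈ su.S1 ∧ su.xib ^ a * t ∈ su.S2}
  zero_mem' := by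
    simp only [Set.mem_ofPred_eq, mul_zero]
    exact ⟨Subalgebra.zero_mem _, Subalgebra.zero_mem _⟩
  add_mem' := by
    intro s t hs ht
    simp only [Set.mem_ofPred_eq, mul_add]
    exact ⟨Subalgebra.add_mem _ hs.1 ht.1, Subalgebra.add_mem _ hs.2 ht.2⟩
  smul_mem' := by
    intro c s hs
    simp only [Set.mem_ofPred_eq, mul_smul_comm]
    exact ⟨Subalgebra.smul_mem _ hs.1 c, Subalgebra.smul_mem _ hs.2 c⟩

theorem mem_Lsing {a b : ℕ} {t : Fb} : t ∈ su.Lsing a b ↔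
    su.xb ^ b * t ∈ su.S1 ∧ su.xib ^ a * t ∈ su.S2 := Iff.rfl

theorem Lsing_mono {a a' b b' : ℕ} (ha : a ≤ a') (hb : b ≤ b') :
    su.Lsing a b ≤ su.Lsing a' b' := by
  intro t ht
  obtain ⟨a'', rfl⟩ := Nat.exists_eq_add_of_le ha
  obtain ⟨b'', rfl⟩ := Nat.exists_eq_add_of_le hb
  refine ⟨?_, ?_⟩
  · rw [pow_add, mul_comm (su.xb ^ b), mul_assoc]
    exact su.S1.mul_mem (su.S1.pow_mem su.xb_mem_S1 _) ht.1
  · rw [pow_add, mul_comm (su.xib ^ a), mul_assoc]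
    exact su.S2.mul_mem (su.S2.pow_mem su.xib_mem_S2 _) ht.2

theorem one_mem_Lsing (a b : ℕ) : (1 : Fb) ∈ su.Lsing a b := by
  refine ⟨?_, ?_⟩
  · rw [mul_one]
    exact su.S1.pow_mem su.xb_mem_S1 _
  · rw [mul_one]
    exact su.S2.pow_mem su.xib_mem_S2 _

theorem Lsing_inf_le_left (a a' b : ℕ) : su.Lsing a b ⊓ su.Lsing a' 0 ≤ su.Lsing a 0 :=
  fun _ ht => ⟨ht.2.1, ht.1.2⟩

theorem Lsing_inf_le_right (a b b' : ℕ) : su.Lsing a b ⊓ su.Lsing 0 b' ≤ su.Lsing 0 b :=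
  fun _ ht => ⟨ht.1.1, ht.2.2⟩

/-- the reduction of `Λ⁰(a,b)` lies in `L̄^sing(a,b)` -/
theorem resBall_le_Lsing (a b : ℕ) : d.resBall (tbLbar (K := K) su.x a b) ≤ su.Lsing a b := by
  rintro _ ⟨s, hs, rfl⟩
  obtain ⟨⟨h1, h2⟩, hsO⟩ := hs
  refine ⟨?_, ?_⟩
  · refine ⟨su.x ^ b * s, ⟨h1, d.Ov.mul_mem (d.Ov.pow_mem su.hx _) hsO⟩, ?_⟩
    rw [d.res_mul' (d.Ov.pow_mem su.hx _) hsO, d.res_pow' su.hx]
    rfl
  · refine ⟨su.x⁻¹ ^ a * s, ⟨h2, d.Ov.mul_mem (d.Ov.pow_mem su.hxi _) hsO⟩, ?_⟩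
    rw [d.res_mul' (d.Ov.pow_mem su.hxi _) hsO, d.res_pow' su.hxi]
    rfl

/-- **flatness** -/
theorem resBall_eq_Lsing {a b : ℕ} (hab : su.e ≤ a + b + 1) :
    d.resBall (tbLbar (K := K) su.x a b) = su.Lsing a b :=
  le_antisymm (su.resBall_le_Lsing a b) (fun _ ht =>
    t2f_flat d su.hx0 su.hx su.hxi su.fin1 hab su.ex2 ht.1 ht.2)

instance finiteDimensional_Lsing (a b : ℕ) : FiniteDimensional k ↥(su.Lsing a b) := by
  have h1 : su.Lsing a b ≤ su.Lsing (a + su.e) b := su.Lsing_mono (by omega) le_rfl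
  rw [← su.resBall_eq_Lsing (a := a + su.e) (b := b) (by omega)] at h1
  haveI := d.finiteDimensional_resBall (tbLbar (K := K) su.x (a + su.e) b)
  exact Submodule.finiteDimensional_of_le h1

theorem finrank_Lsing {a b : ℕ} (h0 : su.a0 ≤ a + b) (he : su.e ≤ a + b + 1) :
    (Module.finrank k ↥(su.Lsing a b) : ℤ) = ((a + b : ℕ) : ℤ) * su.n + su.c := by
  rw [← su.resBall_eq_Lsing he, d.finrank_resBall]
  exact su.dim0 a b h0

end T4Setup

/-- a twist of the structure sheaf by a Kummer function `y ≡ 1` -/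
structure T4Twist {d : T2Base K F k Fb} (su : T4Setup d) where
  /-- the Kummer function -/
  y : F
  hy : y ∈ d.Ov
  hy1 : d.res ⟨y, hy⟩ = 1
  /-- twisted sections on the chart `x ≠ ∞` -/
  L1 : Submodule K F
  /-- twisted sections on the chart `x ≠ 0` -/
  L2 : Submodule K F
  mul_mem1 : ∀ f s : F, f ∈ t2Int (K := K) su.x → s ∈ L1 → f * s ∈ L1
  mul_mem2 : ∀ f s : F, f ∈ t2Int (K := K) su.x⁻¹ → s ∈ L2 → f * s ∈ L2
  pow1 : ∀ s ∈ L1, s ^ su.m * y ∈ t2Int (K := K) su.x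
  pow2 : ∀ s ∈ L2, s ^ su.m * y ∈ t2Int (K := K) su.x⁻¹
  exists1 : ∀ s ∈ L1, ∃ a : ℕ, su.x⁻¹ ^ a * s ∈ L2
  exists2 : ∀ s ∈ L2, ∃ b : ℕ, su.x ^ b * s ∈ L1
  finL : ∀ a b : ℕ, FiniteDimensional K ↥(tbL su.x L1 L2 a b)
  dimgen : ∀ a b : ℕ, su.a0 ≤ a + b →
    ((a + b : ℕ) : ℤ) * su.n + su.c ≤ (Module.finrank K ↥(tbL su.x L1 L2 a b) : ℤ)

namespace T4Twist

variable {d : T2Base K F k Fb} {su : T4Setup d} (tw : T4Twist su)

/-- `L(a,b)` -/
def L (a b : ℕ) : Submodule K F := tbL su.x tw.L1 tw.L2 a b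

instance (a b : ℕ) : FiniteDimensional K ↥(tw.L a b) := tw.finL a b

/-- the gluing invariant on the chart `x ≠ ∞`: `M̄₁ = res (L1 ∩ 𝒪)` -/
def Mbar1 : Submodule k Fb := d.resBall tw.L1

/-- the gluing invariant on the chart `x ≠ 0`: `M̄₂ = res (L2 ∩ 𝒪)` -/
def Mbar2 : Submodule k Fb := d.resBall tw.L2

/-- the reduction of `Λ'(a,b)` lies in `L̄^sing(a,b)` as soon as the gluing invariants are trivial
on both charts -/
theorem resBall_L_le_Lsing (h1 : tw.Mbar1 ≤ Subalgebra.toSubmodule su.S1)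
    (h2 : tw.Mbar2 ≤ Subalgebra.toSubmodule su.S2) (a b : ℕ) :
    d.resBall (tw.L a b) ≤ su.Lsing a b := by
  rintro _ ⟨s, hs, rfl⟩
  obtain ⟨⟨hs1, hs2⟩, hsO⟩ := hs
  refine ⟨?_, ?_⟩
  · have h3 : d.res ⟨su.x ^ b * s, d.Ov.mul_mem (d.Ov.pow_mem su.hx _) hsO⟩ ∈ tw.Mbar1 :=
      ⟨su.x ^ b * s, ⟨hs1, d.Ov.mul_mem (d.Ov.pow_mem su.hx _) hsO⟩, rfl⟩
    have h4 := h1 h3
    rw [d.res_mul' (d.Ov.pow_mem su.hx _) hsO, d.res_pow' su.hx] at h4
    exact h4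
  · have h3 : d.res ⟨su.x⁻¹ ^ a * s, d.Ov.mul_mem (d.Ov.pow_mem su.hxi _) hsO⟩ ∈ tw.Mbar2 :=
      ⟨su.x⁻¹ ^ a * s, ⟨hs2, d.Ov.mul_mem (d.Ov.pow_mem su.hxi _) hsO⟩, rfl⟩
    have h4 := h2 h3
    rw [d.res_mul' (d.Ov.pow_mem su.hxi _) hsO, d.res_pow' su.hxi] at h4
    exact h4

/-- the chart of the lattice machine attached to a twist with trivial gluing invariants -/
def toChart (h1 : tw.Mbar1 ≤ Subalgebra.toSubmodule su.S1)
    (h2 : tw.Mbar2 ≤ Subalgebra.toSubmodule su.S2) : T2Chart d where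
  ℓ := su.ℓ
  hℓ := su.hℓ
  hℓA := su.hℓA
  hℓ0 := su.hℓ0
  m := su.m
  hm := su.hm
  x := su.x
  hx := su.hx
  hxi := su.hxi
  y := tw.y
  hy := tw.hy
  hy1 := tw.hy1
  L1 := tw.L1
  L2 := tw.L2
  mul_mem1 := tw.mul_mem1
  mul_mem2 := tw.mul_mem2
  pow1 := tw.pow1
  pow2 := tw.pow2
  exists1 := tw.exists1
  exists2 := tw.exists2
  finL := tw.finL
  Lbar := su.Lsing
  finLbar := su.finiteDimensional_Lsing
  Lbar_mono' := fun _ _ _ _ ha hb => su.Lsing_mono ha hb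
  one_mem_Lbar := su.one_mem_Lsing
  Lbar_inf_le_left := su.Lsing_inf_le_left
  Lbar_inf_le_right := su.Lsing_inf_le_right
  resBall_L_le' := tw.resBall_L_le_Lsing h1 h2
  n := su.n
  c := su.c
  a0 := max su.a0 su.e
  dimbar := fun a b hab =>
    su.finrank_Lsing ((le_max_left _ _).trans hab) (((le_max_right _ _).trans hab).trans (by omega))
  dimgen := fun a b hab => tw.dimgen a b ((le_max_left _ _).trans hab)

/-- **the three-component core**: a twist whose gluing invariants are trivial on both charts has a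
global section reducing to `1` -/
theorem t4_core (h1 : tw.Mbar1 ≤ Subalgebra.toSubmodule su.S1)
    (h2 : tw.Mbar2 ≤ Subalgebra.toSubmodule su.S2) :
    ∃ s : F, s ∈ tw.L1 ∧ s ∈ tw.L2 ∧ ∃ h : s ∈ d.Ov, d.res ⟨s, h⟩ = 1 :=
  (tw.toChart h1 h2).t2_core_lattice

end T4Twist

end Fermat.Agent.T4
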