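/-
T4-C/T4-L (helper5): from the local-to-global statement `T4Pres.glue` (in the language of
`Lib/T4/Local`) to the two hypotheses `M̄ᵢ ≤ Sᵢ` of `T4Twist.t4_core`.

`P` is a presentation of the chart ring `Bᵢ = t2Int x^{±1} ∩ 𝒪` whose vertical valuation rings cut
out `𝒪 = d.Ov`, and `q ∈ 𝒪` reduces to `0`.
-/
import Fermat.Agent.Lib.T4.Core.Setup
import Fermat.Agent.Lib.T4.Local.StepC

set_option autoImplicit false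
set_option linter.style.haveILetI false

namespace Fermat.Agent.T4

open T2 (T2Base t2Int)

variable {K F k Fb : Type*} [Field K] [Field F] [Algebra K F] [Field k] [CommRing Fb] [Algebra k Fb]

/-- a congruence modulo `q · 𝒪` gives equal reductions -/
theorem t4c_res_eq_of_congrOv (d : T2Base K F k Fb) (P : T4Pres F) {q : F}
    (hOv : ∀ f : F, f ∈ P.ov q → f ∈ d.Ov)
    (hq : ∃ h : q ∈ d.Ov, d.res ⟨q, h⟩ = 0) {t b : F} (ht : t ∈ d.Ov) (hb : b ∈ d.Ov)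
    (h : P.CongrOv q t b) : d.res ⟨t, ht⟩ = d.res ⟨b, hb⟩ := by
  obtain ⟨o, ho, hto⟩ := h
  obtain ⟨hqO, hq0⟩ := hq
  have hoO : o ∈ d.Ov := hOv o ho
  have h1 : t = b + q * o := by rw [← hto]; ring
  have h2 : d.res ⟨t, ht⟩ = d.res ⟨b + q * o, d.Ov.add_mem hb (d.Ov.mul_mem hqO hoO)⟩ :=
    d.res_congr ht h1
  rw [h2, d.res_add' hb (d.Ov.mul_mem hqO hoO), d.res_mul' hqO hoO, hq0, zero_mul, add_zero]

/-- **chart 1**: the local-to-global statement for `B₁` gives `M̄₁ ≤ S₁` -/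
theorem t4c_Mbar1_le {d : T2Base K F k Fb} {su : T4Setup d} (tw : T4Twist su) (P : T4Pres F)
    {q : F} (hB : ∀ f : F, f ∈ P.B ↔ f ∈ t2Int (K := K) su.x ∧ f ∈ d.Ov)
    (hOv : ∀ f : F, f ∈ P.ov q ↔ f ∈ d.Ov) (hq : ∃ h : q ∈ d.Ov, d.res ⟨q, h⟩ = 0)
    (hglue : ∀ t : F, t ∈ P.ov q → t ^ su.m * tw.y ∈ P.B → ∃ b ∈ P.B, P.CongrOv q t b) :
    tw.Mbar1 ≤ Subalgebra.toSubmodule su.S1 := by
  rintro _ ⟨t, ⟨htL, htO⟩, rfl⟩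
  have h1 : t ^ su.m * tw.y ∈ P.B :=
    (hB _).mpr ⟨tw.pow1 t htL, d.Ov.mul_mem (d.Ov.pow_mem htO _) tw.hy⟩
  obtain ⟨b, hb, hc⟩ := hglue t ((hOv t).mpr htO) h1
  obtain ⟨hb1, hb2⟩ := (hB b).mp hb
  rw [t4c_res_eq_of_congrOv d P (fun f hf => (hOv f).mp hf) hq htO hb2 hc]
  exact ⟨b, ⟨hb1, hb2⟩, rfl⟩

/-- **chart 2**: the local-to-global statement for `B₂` gives `M̄₂ ≤ S₂` -/
theorem t4c_Mbar2_le {d : T2Base K F k Fb} {su : T4Setup d} (tw : T4Twist su) (P : T4Pres F)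
    {q : F} (hB : ∀ f : F, f ∈ P.B ↔ f ∈ t2Int (K := K) su.x⁻¹ ∧ f ∈ d.Ov)
    (hOv : ∀ f : F, f ∈ P.ov q ↔ f ∈ d.Ov) (hq : ∃ h : q ∈ d.Ov, d.res ⟨q, h⟩ = 0)
    (hglue : ∀ t : F, t ∈ P.ov q → t ^ su.m * tw.y ∈ P.B → ∃ b ∈ P.B, P.CongrOv q t b) :
    tw.Mbar2 ≤ Subalgebra.toSubmodule su.S2 := by
  rintro _ ⟨t, ⟨htL, htO⟩, rfl⟩
  have h1 : t ^ su.m * tw.y ∈ P.B :=
    (hB _).mpr ⟨tw.pow2 t htL, d.Ov.mul_mem (d.Ov.pow_mem htO _) tw.hy⟩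
  obtain ⟨b, hb, hc⟩ := hglue t ((hOv t).mpr htO) h1
  obtain ⟨hb1, hb2⟩ := (hB b).mp hb
  rw [t4c_res_eq_of_congrOv d P (fun f hf => (hOv f).mp hf) hq htO hb2 hc]
  exact ⟨b, ⟨hb1, hb2⟩, rfl⟩

end Fermat.Agent.T4
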