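/-
T4-N step C (helper5): the chart-level hypotheses of step C as ONE structure, and the core
consequence: the twist of `z' = z ^ (q² - 1) * h ^ m` has a global section reducing to `1`.

`T4nCChart P q m z qq Vinf Vmid V0 a1 a2 b1 b2 h` bundles the hypotheses of `T4Pres.glue_stepC` for
one chart presentation `P`; `t4n_stepC_core` combines the two charts with `t4c_Mbar1_le`,
`t4c_Mbar2_le` and `T4Twist.t4_core`.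
-/
import Fermat.Agent.Lib.T4.Core.GlueAdapter

set_option autoImplicit false
set_option linter.style.haveILetI false

namespace Fermat.Agent.T4

open T2 (T2Base t2Int)

/-- the hypotheses of step C on one chart -/
structure T4nCChart {F : Type*} [Field F] (P : T4Pres F) (q : F) (m : ℕ) (z : F) (qq : ℕ)
    (Vinf Vmid V0 : ValuationSubring F) (a1 a2 b1 b2 : P.B) (h : F) : Prop where
  noeth : IsNoetherianRing P.B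
  hq : q ∈ P.B
  hm : (m : F)⁻¹ ∈ P.B
  hreg : ∀ 𝔫 : Ideal P.B, 𝔫.IsMaximal → (⟨q, hq⟩ : P.B) ∈ 𝔫 → P.RegAt 𝔫
  hsm : ∀ 𝔫 : Ideal P.B, 𝔫.IsMaximal → (⟨q, hq⟩ : P.B) ∈ 𝔫 →
    ∀ (V : ValuationSubring F) (hV : V ∈ P.through 𝔫), V ∈ P.vert q → P.SmoothAt 𝔫 V hV
  hroot : ∀ V ∈ P.vals, V ∉ P.vert q → ∃ t : F, V.valuation (t ^ m * z) = 1
  ha1 : ∀ 𝔫 : Ideal P.B, 𝔫.IsMaximal → a1 ∉ 𝔫
  ha2 : ∀ 𝔫 : Ideal P.B, 𝔫.IsMaximal → a2 ∉ 𝔫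
  hb1 : ∀ 𝔫 : Ideal P.B, 𝔫.IsMaximal → b1 ∉ 𝔫
  hb2 : ∀ 𝔫 : Ideal P.B, 𝔫.IsMaximal → b2 ∉ 𝔫
  hcase : ∀ 𝔫 : Ideal P.B, 𝔫.IsMaximal → (⟨q, hq⟩ : P.B) ∈ 𝔫 → ∀ s : F,
    (∀ V ∈ P.through 𝔫, V.valuation (s ^ m * z) = 1) →
    (∀ V ∈ P.through 𝔫, V ∈ P.vert q → ∀ W ∈ P.through 𝔫, W ∈ P.vert q → V = W) ∨
    ((∀ V ∈ P.through 𝔫, V ∈ P.vert q → V = Vinf ∨ V = Vmid ∨ V = V0) ∧
      Vinf ∈ P.through 𝔫 ∧ Vmid ∈ P.through 𝔫 ∧ V0 ∈ P.through 𝔫 ∧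
      Vinf ∈ P.vert q ∧ Vmid ∈ P.vert q ∧ V0 ∈ P.vert q ∧
      ∀ κi κm κ0 : P.B ⧸ 𝔫, P.BranchVal 𝔫 Vinf s κi → P.BranchVal 𝔫 Vmid s κm →
        P.BranchVal 𝔫 V0 s κ0 → κi ≠ 0 → κm ≠ 0 → κ0 ≠ 0 →
        κi * κm ^ (qq - 1) * Ideal.Quotient.mk 𝔫 a1 = κ0 ^ qq * Ideal.Quotient.mk 𝔫 a2 ∧
        κ0 * κm ^ (qq - 1) * Ideal.Quotient.mk 𝔫 b1 = κi ^ qq * Ideal.Quotient.mk 𝔫 b2)
  hh : ∀ V ∈ P.vert q, V.valuation (h - (P.xiConst Vinf V0 a1 a2 b1 b2 qq V : F)) < 1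

variable {K F k Fb : Type*} [Field K] [Field F] [Algebra K F] [Field k] [CommRing Fb] [Algebra k Fb]

/-- the local-to-global statement on a chart satisfying `T4nCChart` -/
theorem T4nCChart.glue {P : T4Pres F} {q : F} {m : ℕ} {z : F} {qq : ℕ}
    {Vinf Vmid V0 : ValuationSubring F} {a1 a2 b1 b2 : P.B} {h : F}
    (C : T4nCChart P q m z qq Vinf Vmid V0 a1 a2 b1 b2 h) (hq0 : q ≠ 0) (hmF : (m : F) ≠ 0)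
    (hz0 : z ≠ 0) (hz : P.CongrOv q z 1) (hqq : 0 < qq) (hmi : Vmid ≠ Vinf) (hm0 : Vmid ≠ V0)
    (h0i : V0 ≠ Vinf) (hh0 : h ≠ 0) (hhm : P.CongrOv q (h ^ m) 1) {t : F} (ht : t ∈ P.ov q)
    (htz : t ^ m * (z ^ (qq * qq - 1) * h ^ m) ∈ P.B) : ∃ b' ∈ P.B, P.CongrOv q t b' := by
  haveI := C.noeth
  exact P.glue_stepC C.hq hq0 C.hm hmF hz0 hz C.hreg C.hsm C.hroot hqq hmi hm0 h0i C.ha1 C.ha2
    C.hb1 C.hb2 C.hcase hh0 C.hh hhm ht htz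

/-- **step C, core**: both charts satisfy `T4nCChart`; then the twist of
`z' = z ^ (q² - 1) * h ^ m` has a global section reducing to `1` -/
theorem t4n_stepC_core {d : T2Base K F k Fb} {su : T4Setup d} (tw : T4Twist su)
    (P₁ P₂ : T4Pres F) {q : F}
    (hB₁ : ∀ f : F, f ∈ P₁.B ↔ f ∈ t2Int (K := K) su.x ∧ f ∈ d.Ov)
    (hB₂ : ∀ f : F, f ∈ P₂.B ↔ f ∈ t2Int (K := K) su.x⁻¹ ∧ f ∈ d.Ov)
    (hOv₁ : ∀ f : F, f ∈ P₁.ov q ↔ f ∈ d.Ov) (hOv₂ : ∀ f : F, f ∈ P₂.ov q ↔ f ∈ d.Ov)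
    (hqres : ∃ hq : q ∈ d.Ov, d.res ⟨q, hq⟩ = 0) (hq0 : q ≠ 0) (hmF : (su.m : F) ≠ 0)
    {z h : F} (hz0 : z ≠ 0) (hz : ∃ o ∈ d.Ov, z - 1 = q * o) (hh0 : h ≠ 0)
    (hhm : ∃ o ∈ d.Ov, h ^ su.m - 1 = q * o) {qq : ℕ} (hqq : 0 < qq)
    {Vinf Vmid V0 : ValuationSubring F} (hmi : Vmid ≠ Vinf) (hm0 : Vmid ≠ V0) (h0i : V0 ≠ Vinf)
    {a1 a2 b1 b2 : P₁.B} {a1' a2' b1' b2' : P₂.B}
    (C₁ : T4nCChart P₁ q su.m z qq Vinf Vmid V0 a1 a2 b1 b2 h)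
    (C₂ : T4nCChart P₂ q su.m z qq Vinf Vmid V0 a1' a2' b1' b2' h)
    (hy : tw.y = z ^ (qq * qq - 1) * h ^ su.m) :
    ∃ s : F, s ∈ tw.L1 ∧ s ∈ tw.L2 ∧ ∃ hs : s ∈ d.Ov, d.res ⟨s, hs⟩ = 1 := by
  have hz₁ : P₁.CongrOv q z 1 := by
    obtain ⟨o, ho, hzo⟩ := hz
    exact ⟨o, (hOv₁ o).mpr ho, hzo⟩
  have hz₂ : P₂.CongrOv q z 1 := by
    obtain ⟨o, ho, hzo⟩ := hz
    exact ⟨o, (hOv₂ o).mpr ho, hzo⟩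
  have hh₁ : P₁.CongrOv q (h ^ su.m) 1 := by
    obtain ⟨o, ho, hzo⟩ := hhm
    exact ⟨o, (hOv₁ o).mpr ho, hzo⟩
  have hh₂ : P₂.CongrOv q (h ^ su.m) 1 := by
    obtain ⟨o, ho, hzo⟩ := hhm
    exact ⟨o, (hOv₂ o).mpr ho, hzo⟩
  refine tw.t4_core (t4c_Mbar1_le tw P₁ hB₁ hOv₁ hqres ?_) (t4c_Mbar2_le tw P₂ hB₂ hOv₂ hqres ?_)
  · intro t ht htz
    rw [hy] at htz
    exact C₁.glue hq0 hmF hz0 hz₁ hqq hmi hm0 h0i hh0 hh₁ ht htz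
  · intro t ht htz
    rw [hy] at htz
    exact C₂.glue hq0 hmF hz0 hz₂ hqq hmi hm0 h0i hh0 hh₂ ht htz

end Fermat.Agent.T4
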